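import Mathlib
import Fermat.Agent.MU.Lib.RR.NonSpecial

section MergeWrap_S37_GData -- from S37/GData.lean

set_option autoImplicit false
set_option linter.style.haveILetI false

noncomputable section

open AlgebraicCurve Fermat.Agent.RR

namespace Fermat.Agent.S37

/-- A function field `F / K` with a valuation ring `Ov` ("Gauss valuation") extending a valuation
ring `A` of `K` with the same value group, and a residue map `ρ` to some field `E`. -/
structure GData (K F k E : Type*) [Field K] [Field F] [Algebra K F]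
    [Field k] [Field E] [Algebra k E] where
  /-- the valuation ring of the constant field -/
  A : ValuationSubring K
  /-- the (Gauss) valuation ring of the function field -/
  Ov : ValuationSubring F
  /-- residue map of the constants -/
  res : A →+* k
  /-- residue map of the function field -/
  ρ : Ov →+* E
  /-- standing hypotheses of the Riemann-Roch library, generic fibre -/
  hF : IsRRField K F
  res_surj : Function.Surjective res
  /-- `Ov ∩ K = A` -/
  mem_Ov_iff : ∀ c : K, algebraMap K F c ∈ Ov ↔ c ∈ A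
  /-- `ρ` restricted to constants is `res` -/
  ρ_algebraMap : ∀ (c : K) (hc : c ∈ A) (hc' : algebraMap K F c ∈ Ov),
    ρ ⟨algebraMap K F c, hc'⟩ = algebraMap k E (res ⟨c, hc⟩)
  /-- the kernel of `ρ` is the maximal ideal of `Ov` -/
  ρ_eq_zero_iff : ∀ f : Ov, ρ f = 0 ↔ ¬ IsUnit f
  /-- every `f ≠ 0` is a constant times a unit of `Ov` -/
  scale : ∀ f : F, f ≠ 0 → ∃ c : K, c ≠ 0 ∧
    f * (algebraMap K F c)⁻¹ ∈ Ov ∧ (f * (algebraMap K F c)⁻¹)⁻¹ ∈ Ov

variable {K F k E : Type*} [Field K] [Field F] [Algebra K F]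
  [Field k] [Field E] [Algebra k E]

open Classical in
/-- the reduction map as a total function: `ρ` on `Ov`, `0` outside. -/
def GData.red (S : GData K F k E) (f : F) : E :=
  if h : f ∈ S.Ov then S.ρ ⟨f, h⟩ else 0

namespace GData

variable (S : GData K F k E)

theorem red_of_mem {f : F} (hf : f ∈ S.Ov) : S.red f = S.ρ ⟨f, hf⟩ := by
  unfold GData.red
  rw [dif_pos hf]

theorem red_of_not_mem {f : F} (hf : f ∉ S.Ov) : S.red f = 0 := by
  unfold GData.red
  rw [dif_neg hf]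

@[simp]
theorem red_zero : S.red 0 = 0 := by
  rw [S.red_of_mem (zero_mem _)]
  exact map_zero S.ρ

@[simp]
theorem red_one : S.red 1 = 1 := by
  rw [S.red_of_mem (one_mem _)]
  exact map_one S.ρ

theorem red_mul {f g : F} (hf : f ∈ S.Ov) (hg : g ∈ S.Ov) :
    S.red (f * g) = S.red f * S.red g := by
  rw [S.red_of_mem hf, S.red_of_mem hg, S.red_of_mem (mul_mem hf hg), ← map_mul]
  rfl

theorem red_add {f g : F} (hf : f ∈ S.Ov) (hg : g ∈ S.Ov) :
    S.red (f + g) = S.red f + S.red g := by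
  rw [S.red_of_mem hf, S.red_of_mem hg, S.red_of_mem (add_mem hf hg), ← map_add]
  rfl

theorem red_pow {f : F} (hf : f ∈ S.Ov) (n : ℕ) : S.red (f ^ n) = S.red f ^ n := by
  rw [S.red_of_mem hf, S.red_of_mem (pow_mem hf n), ← map_pow]
  rfl

theorem algebraMap_mem {c : K} (hc : c ∈ S.A) : algebraMap K F c ∈ S.Ov :=
  (S.mem_Ov_iff c).mpr hc

theorem red_algebraMap {c : K} (hc : c ∈ S.A) :
    S.red (algebraMap K F c) = algebraMap k E (S.res ⟨c, hc⟩) := by
  rw [S.red_of_mem (S.algebraMap_mem hc)]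
  exact S.ρ_algebraMap c hc _

theorem red_smul {c : K} (hc : c ∈ S.A) {f : F} (hf : f ∈ S.Ov) :
    S.red (c • f) = S.res ⟨c, hc⟩ • S.red f := by
  rw [Algebra.smul_def, S.red_mul (S.algebraMap_mem hc) hf, S.red_algebraMap hc, Algebra.smul_def]

theorem smul_mem {c : K} (hc : c ∈ S.A) {f : F} (hf : f ∈ S.Ov) : c • f ∈ S.Ov := by
  rw [Algebra.smul_def]
  exact mul_mem (S.algebraMap_mem hc) hf

/-- the reduction of `f ∈ Ov`, `f ≠ 0`, vanishes iff `f` is not a unit of `Ov`. -/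
theorem red_eq_zero_iff {f : F} (hf : f ∈ S.Ov) (hf0 : f ≠ 0) : S.red f = 0 ↔ f⁻¹ ∉ S.Ov := by
  rw [S.red_of_mem hf, S.ρ_eq_zero_iff]
  constructor
  · intro hnu hinv
    apply hnu
    exact ⟨⟨⟨f, hf⟩, ⟨f⁻¹, hinv⟩, Subtype.ext (mul_inv_cancel₀ hf0),
      Subtype.ext (inv_mul_cancel₀ hf0)⟩, rfl⟩
  · intro hinv hu
    apply hinv
    obtain ⟨u, hu⟩ := hu
    have h1 : ((u⁻¹ : S.Ovˣ) : S.Ov) * (⟨f, hf⟩ : S.Ov) = 1 := by
      rw [← hu]
      exact u.inv_mul
    have h2 : (((u⁻¹ : S.Ovˣ) : S.Ov) : F) * f = 1 := by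
      have := congrArg (Subtype.val) h1
      simpa using this
    have h3 : f⁻¹ = (((u⁻¹ : S.Ovˣ) : S.Ov) : F) := by
      rw [eq_comm, ← mul_eq_one_iff_eq_inv₀ hf0]
      exact h2
    rw [h3]
    exact Subtype.mem _

theorem red_ne_zero {f : F} (hf : f ∈ S.Ov) (hinv : f⁻¹ ∈ S.Ov) (hf0 : f ≠ 0) : S.red f ≠ 0 := by
  intro h
  exact ((S.red_eq_zero_iff hf hf0).mp h) hinv

theorem mem_of_red_ne_zero {f : F} (h : S.red f ≠ 0) : f ∈ S.Ov := by
  by_contra hf
  exact h (S.red_of_not_mem hf)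

theorem ne_zero_of_red_ne_zero {f : F} (h : S.red f ≠ 0) : f ≠ 0 := by
  rintro rfl
  exact h S.red_zero

theorem inv_mem_of_red_ne_zero {f : F} (h : S.red f ≠ 0) : f⁻¹ ∈ S.Ov := by
  have hf := S.mem_of_red_ne_zero h
  have hf0 : f ≠ 0 := S.ne_zero_of_red_ne_zero h
  by_contra hinv
  exact h ((S.red_eq_zero_iff hf hf0).mpr hinv)

theorem red_inv {f : F} (hf : f ∈ S.Ov) (hinv : f⁻¹ ∈ S.Ov) (hf0 : f ≠ 0) :
    S.red f⁻¹ = (S.red f)⁻¹ := by
  have h1 : S.red f * S.red f⁻¹ = 1 := by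
    rw [← S.red_mul hf hinv, mul_inv_cancel₀ hf0, S.red_one]
  exact eq_inv_of_mul_eq_one_right h1

/-- normal form: every `f ≠ 0` is `c • u` with `c ∈ Kˣ` and `red u ≠ 0`. -/
theorem exists_scale {f : F} (hf : f ≠ 0) :
    ∃ c : K, c ≠ 0 ∧ S.red (c⁻¹ • f) ≠ 0 := by
  obtain ⟨c, hc, h1, h2⟩ := S.scale f hf
  refine ⟨c, hc, ?_⟩
  have e : c⁻¹ • f = f * (algebraMap K F c)⁻¹ := by
    rw [Algebra.smul_def, map_inv₀, mul_comm]
  rw [e]
  have hc' : algebraMap K F c ≠ 0 := by
    rw [Ne, map_eq_zero_iff _ (algebraMap K F).injective]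
    exact hc
  exact S.red_ne_zero h1 h2 (mul_ne_zero hf (inv_ne_zero hc'))

/-- an element with reduction `1` is a unit. -/
theorem red_inv_of_red_eq_one {w : F} (hw : S.red w = 1) : S.red w⁻¹ = 1 := by
  have h0 : S.red w ≠ 0 := by rw [hw]; exact one_ne_zero
  rw [S.red_inv (S.mem_of_red_ne_zero h0) (S.inv_mem_of_red_ne_zero h0)
    (S.ne_zero_of_red_ne_zero h0), hw, inv_one]

/-- a constant of `A` with nonzero residue is a unit of `A`. -/
theorem inv_mem_of_res_ne_zero {a : K} (ha : a ∈ S.A) (h : S.res ⟨a, ha⟩ ≠ 0) : a⁻¹ ∈ S.A := by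
  have h1 : S.red (algebraMap K F a) ≠ 0 := by
    rw [S.red_algebraMap ha]
    exact fun h0 => h ((map_eq_zero_iff _ (algebraMap k E).injective).mp h0)
  have h2 := S.inv_mem_of_red_ne_zero h1
  rw [← map_inv₀] at h2
  exact (S.mem_Ov_iff _).mp h2

end GData

/-- in a valuation ring, a finite family of elements of the fraction field, not all zero, has a
member of maximal valuation. -/
theorem gd_exists_max_coeff (A : ValuationSubring K) {ι : Type*} [Finite ι] (c : ι → K)
    (hc : ∃ i, c i ≠ 0) : ∃ i₀, c i₀ ≠ 0 ∧ ∀ i, c i * (c i₀)⁻¹ ∈ A := by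
  classical
  have := Fintype.ofFinite ι
  obtain ⟨j, hj⟩ := hc
  obtain ⟨i₀, -, hi₀⟩ := Finset.exists_max_image (Finset.univ : Finset ι)
    (fun i => A.valuation (c i)) ⟨j, Finset.mem_univ j⟩
  have hne : c i₀ ≠ 0 := by
    intro h0
    have h1 := hi₀ j (Finset.mem_univ j)
    rw [h0, map_zero] at h1
    exact hj ((map_eq_zero _).mp (le_antisymm h1 zero_le))
  refine ⟨i₀, hne, fun i => ?_⟩
  rw [← A.valuation_le_one_iff, map_mul, map_inv₀]
  have h1 := hi₀ i (Finset.mem_univ i)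
  have h2 : A.valuation (c i₀) ≠ 0 := (map_ne_zero _).mpr hne
  exact mul_inv_le_one_of_le₀ h1 zero_le

variable (S : GData K F k E)

/-- reduction of a linear combination with integral coefficients. -/
theorem gd_red_sum {ι : Type*} [Fintype ι] (w : ι → F) (hw : ∀ i, w i ∈ S.Ov) (c : ι → K)
    (hc : ∀ i, c i ∈ S.A) :
    (∑ i, c i • w i) ∈ S.Ov ∧
      S.red (∑ i, c i • w i) = ∑ i, S.res ⟨c i, hc i⟩ • S.red (w i) := by
  classical
  suffices h : ∀ s : Finset ι, (∑ i ∈ s, c i • w i) ∈ S.Ov ∧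
      S.red (∑ i ∈ s, c i • w i) = ∑ i ∈ s, S.res ⟨c i, hc i⟩ • S.red (w i) from h Finset.univ
  intro s
  induction s using Finset.induction_on with
  | empty => simp
  | insert a s ha ih =>
    rw [Finset.sum_insert ha, Finset.sum_insert ha]
    refine ⟨add_mem (S.smul_mem (hc a) (hw a)) ih.1, ?_⟩
    rw [S.red_add (S.smul_mem (hc a) (hw a)) ih.1, S.red_smul (hc a) (hw a), ih.2]

/-- an orthonormal family is linearly independent over `K`. -/
theorem gd_linearIndependent_of_red {ι : Type*} [Fintype ι] (w : ι → F)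
    (hw : ∀ i, w i ∈ S.Ov)
    (hli : LinearIndependent k (fun i => S.red (w i))) : LinearIndependent K w := by
  classical
  rw [Fintype.linearIndependent_iff]
  intro c hc
  by_contra hcon
  push Not at hcon
  obtain ⟨j, hj⟩ := hcon
  obtain ⟨i₀, hi₀, hall⟩ := gd_exists_max_coeff S.A c ⟨j, hj⟩
  set d : ι → K := fun i => c i * (c i₀)⁻¹ with hd
  have hd_mem : ∀ i, d i ∈ S.A := hall
  have hsum' : ∑ i, d i • w i = (c i₀)⁻¹ • ∑ i, c i • w i := by
    rw [Finset.smul_sum]
    refine Finset.sum_congr rfl fun i _ => ?_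
    rw [hd, smul_smul, mul_comm]
  have h1 := (gd_red_sum S w hw d hd_mem).2
  rw [hsum', hc, smul_zero, S.red_zero] at h1
  have h2 := (Fintype.linearIndependent_iff.mp hli) (fun i => S.res ⟨d i, hd_mem i⟩) h1.symm i₀
  have h3 : (⟨d i₀, hd_mem i₀⟩ : S.A) = 1 := by
    apply Subtype.ext
    show c i₀ * (c i₀)⁻¹ = 1
    exact mul_inv_cancel₀ hi₀
  rw [h3, map_one] at h2
  exact one_ne_zero h2

/-- the powers of a transcendental element are linearly independent. -/
theorem gd_linearIndependent_pow {x : E} (hx : Transcendental k x) :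
    LinearIndependent k (fun i : ℕ => x ^ i) := by
  have hinj : Function.Injective (Polynomial.aeval (R := k) x) :=
    transcendental_iff_injective.mp hx
  have h1 : LinearIndependent k (fun i : ℕ => (Polynomial.monomial i (1 : k))) := by
    have := (Polynomial.basisMonomials k).linearIndependent
    rwa [Polynomial.coe_basisMonomials] at this
  have h2 := h1.map' (Polynomial.aeval (R := k) x).toLinearMap (LinearMap.ker_eq_bot.mpr hinj)
  have e : (fun i : ℕ => x ^ i) =
      ⇑(Polynomial.aeval (R := k) x).toLinearMap ∘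
        (fun i : ℕ => (Polynomial.monomial i (1 : k))) := by
    funext i
    simp [Polynomial.aeval_monomial]
  rw [e]
  exact h2

/-- `u ^ i ∈ L(n (u)_∞)` for `i ≤ n`. -/
theorem gd_pow_mem (h : IsRRField K F) (u : F) {i n : ℕ} (hin : i ≤ n) :
    u ^ i ∈ riemannRochSpace (n • poleDiv h u) := by
  have h1 : (1 : F) ∈ riemannRochSpace (0 : Divisor K F) := by
    have := algebraMap_mem_riemannRochSpace_zero (K := K) (F := F) (1 : K)
    rwa [map_one] at this
  have h2 := pow_mul_mem h u h1 hin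
  rwa [mul_one, add_zero] at h2

/-- **Fundamental inequality, special case**: if `red w = (red u)^n` with `red u` transcendental
over `k`, then `n ≤ deg (w)_∞`. -/
theorem gd_le_degree_poleDiv {u w : F} (hu : u ∈ S.Ov) (hw : w ∈ S.Ov) (n : ℕ)
    (hred : S.red w = S.red u ^ n) (htr : Transcendental k (S.red u)) :
    (n : ℤ) ≤ Divisor.degree (poleDiv S.hF w) := by
  classical
  by_contra hcon
  push Not at hcon
  have hd0 : 0 ≤ Divisor.degree (poleDiv S.hF w) :=
    degree_nonneg_of_nonneg S.hF (poleDiv_nonneg S.hF w)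
  have hdu0 : 0 ≤ Divisor.degree (poleDiv S.hF u) :=
    degree_nonneg_of_nonneg S.hF (poleDiv_nonneg S.hF u)
  obtain ⟨du, hdu⟩ : ∃ du : ℕ, (du : ℤ) = Divisor.degree (poleDiv S.hF u) :=
    ⟨_, Int.toNat_of_nonneg hdu0⟩
  set M : ℕ := n * du + 1 with hM
  set D : Divisor K F := M • poleDiv S.hF w + n • poleDiv S.hF u with hD
  let e : Fin (M + 1) × Fin n → F := fun p => w ^ (p.1 : ℕ) * u ^ (p.2 : ℕ)
  have hmem : ∀ p, e p ∈ riemannRochSpace D := fun p =>
    pow_mul_mem S.hF w (gd_pow_mem S.hF u (le_of_lt p.2.2)) (Nat.lt_succ_iff.mp p.1.2)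
  have heO : ∀ p, e p ∈ S.Ov := fun p => mul_mem (pow_mem hw _) (pow_mem hu _)
  have hered : ∀ p, S.red (e p) = S.red u ^ (n * (p.1 : ℕ) + (p.2 : ℕ)) := by
    intro p
    rw [S.red_mul (pow_mem hw _) (pow_mem hu _), S.red_pow hw, S.red_pow hu, hred, ← pow_mul,
      ← pow_add]
  have hli1 : LinearIndependent k (fun p => S.red (e p)) := by
    have h1 := (gd_linearIndependent_pow htr).comp
      (fun p : Fin (M + 1) × Fin n => n * (p.1 : ℕ) + (p.2 : ℕ)) (by
        intro p q hpq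
        simp only at hpq
        have hp2 := p.2.2
        have hq2 := q.2.2
        have hn0 : 0 < n := lt_of_le_of_lt (Nat.zero_le _) hp2
        have h3 : ((p.1 : ℕ)) = (q.1 : ℕ) := by
          have e1 : (n * (p.1 : ℕ) + (p.2 : ℕ)) / n = (p.1 : ℕ) := by
            rw [Nat.mul_add_div hn0, Nat.div_eq_of_lt hp2, add_zero]
          have e2 : (n * (q.1 : ℕ) + (q.2 : ℕ)) / n = (q.1 : ℕ) := by
            rw [Nat.mul_add_div hn0, Nat.div_eq_of_lt hq2, add_zero]
          rw [← e1, ← e2, hpq]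
        have h4 : ((p.2 : ℕ)) = (q.2 : ℕ) := by
          rw [h3] at hpq
          exact Nat.add_left_cancel hpq
        exact Prod.ext (Fin.ext h3) (Fin.ext h4))
    have e1 : (fun p => S.red (e p)) = (fun i : ℕ => S.red u ^ i) ∘
        (fun p : Fin (M + 1) × Fin n => n * (p.1 : ℕ) + (p.2 : ℕ)) := by
      funext p
      rw [hered]
      rfl
    rw [e1]
    exact h1
  have hliK : LinearIndependent K e := gd_linearIndependent_of_red S e heO hli1
  have hli2 : LinearIndependent K (fun p => (⟨e p, hmem p⟩ : riemannRochSpace D)) := by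
    apply LinearIndependent.of_comp (riemannRochSpace D).subtype
    exact hliK
  haveI := finite_riemannRochSpace S.hF D
  have hcard := hli2.fintype_card_le_finrank
  rw [Fintype.card_prod, Fintype.card_fin, Fintype.card_fin] at hcard
  have hdegD : Divisor.degree D =
      (M : ℤ) * Divisor.degree (poleDiv S.hF w) + (n : ℤ) * (du : ℤ) := by
    rw [hD, map_add, map_nsmul, map_nsmul, nsmul_eq_mul, nsmul_eq_mul, hdu]
  have hD0 : 0 ≤ Divisor.degree D := by
    rw [hdegD]
    positivity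
  have hell := ell_le_degree_add_one S.hF hD0
  rw [ell_def] at hell
  have h5 : ((M + 1) * n : ℤ) ≤ (M : ℤ) * Divisor.degree (poleDiv S.hF w) + (n : ℤ) * du + 1 := by
    rw [← hdegD]
    refine le_trans ?_ hell
    exact_mod_cast hcard
  have h6 : (M : ℤ) * Divisor.degree (poleDiv S.hF w) ≤ (M : ℤ) * ((n : ℤ) - 1) := by
    apply mul_le_mul_of_nonneg_left _ (Int.natCast_nonneg M)
    omega
  have hMz : (M : ℤ) = (n : ℤ) * du + 1 := by
    rw [hM]
    push_cast
    ring
  nlinarith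
end Fermat.Agent.S37
end
end MergeWrap_S37_GData

section MergeWrap_S37_Bounded -- from S37/Bounded.lean

set_option autoImplicit false
set_option linter.style.haveILetI false

noncomputable section

open AlgebraicCurve Fermat.Agent.RR

namespace Fermat.Agent.S37

variable {K F k E : Type*} [Field K] [Field F] [Algebra K F]
  [Field k] [Field E] [Algebra k E]

/-! ### divisors of functions -/

theorem gd_divOf_pow (h : IsRRField K F) (f : F) (n : ℕ) :
    divOf h (f ^ n) = n • divOf h f := by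
  apply Finsupp.ext
  intro v
  rw [divOf_apply, Finsupp.smul_apply, divOf_apply, ← zpow_natCast, Place.ord_zpow, nsmul_eq_mul]

theorem gd_ord_algebraMap (v : Place K F) {c : K} (hc : c ≠ 0) :
    v.ord (algebraMap K F c) = 0 := by
  have h1 : algebraMap K F c * algebraMap K F c⁻¹ = 1 := by
    rw [← map_mul, mul_inv_cancel₀ hc, map_one]
  have h2 : algebraMap K F c⁻¹ * algebraMap K F c = 1 := by
    rw [mul_comm]; exact h1
  let u : v.toValuationSubringˣ :=
    ⟨⟨algebraMap K F c, v.algebraMap_mem' c⟩, ⟨algebraMap K F c⁻¹, v.algebraMap_mem' c⁻¹⟩,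
      Subtype.ext h1, Subtype.ext h2⟩
  exact v.ord_coe_unit u

theorem gd_divOf_smul (h : IsRRField K F) {c : K} (hc : c ≠ 0) {f : F} (hf : f ≠ 0) :
    divOf h (c • f) = divOf h f := by
  apply Finsupp.ext
  intro v
  have hcF : algebraMap K F c ≠ 0 := by
    rw [Ne, map_eq_zero_iff _ (algebraMap K F).injective]
    exact hc
  rw [divOf_apply, divOf_apply, Algebra.smul_def, v.ord_mul hcF hf, gd_ord_algebraMap v hc,
    zero_add]

/-! ### the subgroup `unitDiv` -/

/-- divisors of functions with reduction `1`. -/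
def unitDiv (S : GData K F k E) : AddSubgroup (Divisor K F) where
  carrier := {D | ∃ w : F, S.red w = 1 ∧ D = divOf S.hF w}
  zero_mem' := ⟨1, S.red_one, (divOf_one S.hF).symm⟩
  add_mem' := by
    rintro _ _ ⟨w, hw, rfl⟩ ⟨w', hw', rfl⟩
    have h0 : S.red w ≠ 0 := by rw [hw]; exact one_ne_zero
    have h0' : S.red w' ≠ 0 := by rw [hw']; exact one_ne_zero
    refine ⟨w * w', ?_, ?_⟩
    · rw [S.red_mul (S.mem_of_red_ne_zero h0) (S.mem_of_red_ne_zero h0'), hw, hw', mul_one]
    · rw [divOf_mul S.hF (S.ne_zero_of_red_ne_zero h0) (S.ne_zero_of_red_ne_zero h0')]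
  neg_mem' := by
    rintro _ ⟨w, hw, rfl⟩
    exact ⟨w⁻¹, S.red_inv_of_red_eq_one hw, (divOf_inv S.hF w).symm⟩

theorem mem_unitDiv_iff (S : GData K F k E) (D : Divisor K F) :
    D ∈ unitDiv S ↔ ∃ w : F, S.red w = 1 ∧ D = divOf S.hF w := Iff.rfl

/-! ### bounded divisors -/

/-- `D = E₁ - E₂` with `E₁, E₂ ≥ 0` of degree `≤ C`. -/
def Bdd (C : ℤ) (D : Divisor K F) : Prop :=
  ∃ E₁ E₂ : Divisor K F, 0 ≤ E₁ ∧ 0 ≤ E₂ ∧ D = E₁ - E₂ ∧
    Divisor.degree E₁ ≤ C ∧ Divisor.degree E₂ ≤ C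

theorem Bdd.zero : Bdd (0 : ℤ) (0 : Divisor K F) :=
  ⟨0, 0, le_refl _, le_refl _, (sub_zero _).symm, by simp, by simp⟩

theorem Bdd.add {C C' : ℤ} {D D' : Divisor K F} (h : Bdd C D) (h' : Bdd C' D') :
    Bdd (C + C') (D + D') := by
  obtain ⟨E₁, E₂, h1, h2, rfl, h3, h4⟩ := h
  obtain ⟨E₁', E₂', h1', h2', rfl, h3', h4'⟩ := h'
  refine ⟨E₁ + E₁', E₂ + E₂', add_nonneg h1 h1', add_nonneg h2 h2', by abel, ?_, ?_⟩
  · rw [map_add]; exact add_le_add h3 h3'
  · rw [map_add]; exact add_le_add h4 h4'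

theorem Bdd.neg {C : ℤ} {D : Divisor K F} (h : Bdd C D) : Bdd C (-D) := by
  obtain ⟨E₁, E₂, h1, h2, rfl, h3, h4⟩ := h
  exact ⟨E₂, E₁, h2, h1, by abel, h4, h3⟩

/-- the pole divisor of a function with bounded divisor has bounded degree. -/
theorem Bdd.degree_poleDiv_le (h : IsRRField K F) {C : ℤ} {f : F} (hB : Bdd C (divOf h f)) :
    Divisor.degree (poleDiv h f) ≤ C := by
  obtain ⟨E₁, E₂, h1, h2, h3, -, h4⟩ := hB
  refine le_trans (degree_mono h ?_) h4
  rw [Finsupp.le_def]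
  intro v
  rw [poleDiv_apply]
  have e1 : v.ord f = E₁ v - E₂ v := by
    rw [← divOf_apply h f v, h3, Finsupp.sub_apply]
  have e2 : (0 : ℤ) ≤ E₁ v := by
    have := (Finsupp.le_def.mp h1) v
    simpa using this
  have e3 : (0 : ℤ) ≤ E₂ v := by
    have := (Finsupp.le_def.mp h2) v
    simpa using this
  rw [e1]
  exact max_le (by omega) e3

/-- **Riemann**: every divisor of degree `0` is a divisor bounded by the genus plus a principal
divisor. -/
theorem exists_bdd_rep (h : IsRRField K F) (Y : Divisor K F) (hY : Divisor.degree Y = 0) :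
    ∃ (B : Divisor K F) (a : F), a ≠ 0 ∧ Bdd (genusFF K F : ℤ) B ∧ Y = B + divOf h a := by
  obtain ⟨P₀⟩ := nonempty_place h
  set g : ℕ := genusFF K F with hg
  set D : Divisor K F := Y + Finsupp.single P₀ (g : ℤ) with hD
  have hdegD : Divisor.degree D = g := by
    rw [hD, map_add, hY, zero_add, degree_single_one h]
  have hell : (1 : ℤ) ≤ (ell D : ℤ) := by
    have := riemann_inequality h D
    rw [hdegD] at this
    omega
  have hne : riemannRochSpace D ≠ ⊥ := by
    intro hbot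
    rw [ell_def, hbot, finrank_bot] at hell
    omega
  obtain ⟨a, haD, ha0⟩ := (Submodule.ne_bot_iff _).mp hne
  have hle := (mem_riemannRochSpace_iff_le h ha0).mp haD
  -- `E := div a + D ≥ 0`
  set E₁ : Divisor K F := divOf h a + D with hE₁
  have hE₁0 : 0 ≤ E₁ := by
    rw [hE₁]
    have := add_le_add_left hle D
    rw [neg_add_cancel] at this
    exact this
  have hdegE : Divisor.degree E₁ = g := by
    rw [hE₁, map_add, degree_divOf, zero_add, hdegD]
  refine ⟨E₁ - Finsupp.single P₀ (g : ℤ), a⁻¹, inv_ne_zero ha0,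
    ⟨E₁, Finsupp.single P₀ (g : ℤ), hE₁0, ?_, rfl, le_of_eq hdegE, ?_⟩, ?_⟩
  · classical
    rw [Finsupp.le_def]
    intro v
    rw [Finsupp.single_apply]
    split_ifs
    · exact Int.natCast_nonneg g
    · exact le_refl _
  · rw [degree_single_one h]
  · rw [divOf_inv, hE₁, hD]
    abel

/-! ### good maps -/

/-- a positive additive map of divisors which multiplies degrees by at most `c`. -/
structure IsPosBdd (c : ℤ) (Λ : Divisor K F →+ Divisor K F) : Prop where
  nonneg : ∀ E, 0 ≤ E → 0 ≤ Λ E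
  degree_le : ∀ E, 0 ≤ E → Divisor.degree (Λ E) ≤ c * Divisor.degree E

/-- a difference of two positive maps of bounded degree. -/
def IsBddMap (Λ : Divisor K F →+ Divisor K F) : Prop :=
  ∃ (c : ℤ) (Λ₁ Λ₂ : Divisor K F →+ Divisor K F), 0 ≤ c ∧ IsPosBdd c Λ₁ ∧ IsPosBdd c Λ₂ ∧
    ∀ D, Λ D = Λ₁ D - Λ₂ D

theorem IsBddMap.exists_bdd {Λ : Divisor K F →+ Divisor K F} (hΛ : IsBddMap Λ) :
    ∃ c : ℤ, 0 ≤ c ∧ ∀ (C : ℤ), 0 ≤ C → ∀ D, Bdd C D → Bdd (c * C) (Λ D) := by
  obtain ⟨c, Λ₁, Λ₂, hc, h1, h2, hΛ⟩ := hΛ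
  refine ⟨2 * c, by positivity, fun C hC D hD => ?_⟩
  obtain ⟨E₁, E₂, hE₁, hE₂, rfl, hd₁, hd₂⟩ := hD
  refine ⟨Λ₁ E₁ + Λ₂ E₂, Λ₁ E₂ + Λ₂ E₁, add_nonneg (h1.nonneg _ hE₁) (h2.nonneg _ hE₂),
    add_nonneg (h1.nonneg _ hE₂) (h2.nonneg _ hE₁), ?_, ?_, ?_⟩
  · rw [hΛ, map_sub, map_sub]
    abel
  · rw [map_add]
    have a1 := h1.degree_le _ hE₁
    have a2 := h2.degree_le _ hE₂
    have b1 : c * Divisor.degree E₁ ≤ c * C := mul_le_mul_of_nonneg_left hd₁ hc
    have b2 : c * Divisor.degree E₂ ≤ c * C := mul_le_mul_of_nonneg_left hd₂ hc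
    linarith
  · rw [map_add]
    have a1 := h1.degree_le _ hE₂
    have a2 := h2.degree_le _ hE₁
    have b1 : c * Divisor.degree E₁ ≤ c * C := mul_le_mul_of_nonneg_left hd₁ hc
    have b2 : c * Divisor.degree E₂ ≤ c * C := mul_le_mul_of_nonneg_left hd₂ hc
    linarith

/-- a good map: bounded, and principal divisors go to divisors of functions with reduction `1`. -/
def IsGoodMap (S : GData K F k E) (Λ : Divisor K F →+ Divisor K F) : Prop :=
  IsBddMap Λ ∧ ∀ w : F, w ≠ 0 → Λ (divOf S.hF w) ∈ unitDiv S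

/-- the set of generators `Λ Y`. -/
def genDiv (𝓛 : Set (Divisor K F →+ Divisor K F)) : Set (Divisor K F) :=
  {D | ∃ Λ ∈ 𝓛, ∃ Y : Divisor K F, Divisor.degree Y = 0 ∧ D = Λ Y}

variable (S : GData K F k E)

/-- Lemma A: every element `v` of the subgroup generated by the `Λ Y` has, for every `n`, a
representative of `n • v` modulo `unitDiv` which is bounded independently of `n`. -/
theorem exists_bdd_of_mem_closure (𝓛 : Set (Divisor K F →+ Divisor K F))
    (h𝓛 : ∀ Λ ∈ 𝓛, IsGoodMap S Λ) {v : Divisor K F}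
    (hv : v ∈ AddSubgroup.closure (genDiv 𝓛)) :
    ∃ C : ℤ, ∀ n : ℕ, ∃ B : Divisor K F, Bdd C B ∧ n • v - B ∈ unitDiv S := by
  induction hv using AddSubgroup.closure_induction with
  | mem v hv =>
    obtain ⟨Λ, hΛ, Y, hY, rfl⟩ := hv
    obtain ⟨hbd, hprin⟩ := h𝓛 Λ hΛ
    obtain ⟨c, hc, hcb⟩ := hbd.exists_bdd
    refine ⟨c * (genusFF K F : ℤ), fun n => ?_⟩
    have hnY : Divisor.degree (n • Y) = 0 := by rw [map_nsmul, hY, smul_zero]
    obtain ⟨B₀, a, ha, hB₀, hYB⟩ := exists_bdd_rep S.hF (n • Y) hnY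
    refine ⟨Λ B₀, hcb _ (Int.natCast_nonneg _) _ hB₀, ?_⟩
    have e : n • Λ Y - Λ B₀ = Λ (divOf S.hF a) := by
      rw [← map_nsmul, ← map_sub, hYB, add_sub_cancel_left]
    rw [e]
    exact hprin a ha
  | zero =>
    refine ⟨0, fun n => ⟨0, Bdd.zero, ?_⟩⟩
    rw [smul_zero, sub_zero]
    exact AddSubgroup.zero_mem _
  | add v w _ _ hv hw =>
    obtain ⟨C, hC⟩ := hv
    obtain ⟨C', hC'⟩ := hw
    refine ⟨C + C', fun n => ?_⟩
    obtain ⟨B, hB, hBm⟩ := hC n
    obtain ⟨B', hB', hBm'⟩ := hC' n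
    refine ⟨B + B', hB.add hB', ?_⟩
    have e : n • (v + w) - (B + B') = (n • v - B) + (n • w - B') := by
      rw [smul_add]; abel
    rw [e]
    exact AddSubgroup.add_mem _ hBm hBm'
  | neg v _ hv =>
    obtain ⟨C, hC⟩ := hv
    refine ⟨C, fun n => ?_⟩
    obtain ⟨B, hB, hBm⟩ := hC n
    refine ⟨-B, hB.neg, ?_⟩
    have e : n • (-v) - (-B) = -(n • v - B) := by
      rw [smul_neg]; abel
    rw [e]
    exact AddSubgroup.neg_mem _ hBm

/-- an element of `E` algebraic over the algebraically closed field `k` is a constant. -/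
theorem gd_exists_algebraMap_eq [IsAlgClosed k] {x : E} (hx : IsAlgebraic k x) :
    ∃ c : k, algebraMap k E c = x := by
  have hint : IsIntegral k x := hx.isIntegral
  have hirr := minpoly.irreducible hint
  have hdeg := IsAlgClosed.degree_eq_one_of_irreducible k hirr
  exact minpoly.mem_range_of_degree_eq_one k x hdeg

/-- Lemma B: a principal divisor all of whose multiples are bounded modulo `unitDiv` lies in
`unitDiv`. -/
theorem mem_unitDiv_of_bdd [IsAlgClosed k] {f : F} (hf : f ≠ 0) (C : ℤ)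
    (hC : ∀ n : ℕ, ∃ B : Divisor K F, Bdd C B ∧ n • divOf S.hF f - B ∈ unitDiv S) :
    divOf S.hF f ∈ unitDiv S := by
  obtain ⟨c, hc, hred⟩ := S.exists_scale hf
  set u : F := c⁻¹ • f with hu
  have hu0 : u ≠ 0 := S.ne_zero_of_red_ne_zero hred
  have huO : u ∈ S.Ov := S.mem_of_red_ne_zero hred
  have hdiv : divOf S.hF u = divOf S.hF f := gd_divOf_smul S.hF (inv_ne_zero hc) hf
  by_cases halg : IsAlgebraic k (S.red u)
  · -- the reduction is a constant
    obtain ⟨cb, hcb⟩ := gd_exists_algebraMap_eq halg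
    have hcb0 : cb ≠ 0 := by
      rintro rfl
      rw [map_zero] at hcb
      exact hred hcb.symm
    obtain ⟨⟨a, ha⟩, rfl⟩ := S.res_surj cb
    have hainv : a⁻¹ ∈ S.A := S.inv_mem_of_res_ne_zero ha hcb0
    have ha0 : a ≠ 0 := by
      rintro rfl
      apply hcb0
      have : (⟨0, ha⟩ : S.A) = 0 := rfl
      rw [this, map_zero]
    refine ⟨a⁻¹ • u, ?_, ?_⟩
    · have h1 : S.red (algebraMap K F a) = algebraMap k E (S.res ⟨a, ha⟩) := S.red_algebraMap ha
      have h2 : S.red (algebraMap K F a⁻¹) = (algebraMap k E (S.res ⟨a, ha⟩))⁻¹ := by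
        have haF : algebraMap K F a ≠ 0 := by
          rw [Ne, map_eq_zero_iff _ (algebraMap K F).injective]
          exact ha0
        have := S.red_inv (S.algebraMap_mem ha)
          (by rw [← map_inv₀]; exact S.algebraMap_mem hainv) haF
        rw [← map_inv₀, h1] at this
        exact this
      rw [Algebra.smul_def, S.red_mul (S.algebraMap_mem hainv) huO, h2, ← hcb]
      exact inv_mul_cancel₀ (by rw [hcb]; exact hred)
    · rw [gd_divOf_smul S.hF (inv_ne_zero ha0) hu0, hdiv]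
  · -- the reduction is transcendental: contradiction
    exfalso
    have htr : Transcendental k (S.red u) := halg
    set n : ℕ := C.toNat + 1 with hn
    obtain ⟨B, hB, w, hw, hBw⟩ := hC n
    have hw0 : S.red w ≠ 0 := by rw [hw]; exact one_ne_zero
    have hwO : w ∈ S.Ov := S.mem_of_red_ne_zero hw0
    have hwinvO : w⁻¹ ∈ S.Ov := S.inv_mem_of_red_ne_zero hw0
    have hwne : w ≠ 0 := S.ne_zero_of_red_ne_zero hw0
    set z : F := u ^ n * w⁻¹ with hz
    have hzO : z ∈ S.Ov := mul_mem (pow_mem huO n) hwinvO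
    have hzred : S.red z = S.red u ^ n := by
      rw [hz, S.red_mul (pow_mem huO n) hwinvO, S.red_pow huO, S.red_inv_of_red_eq_one hw,
        mul_one]
    have hzdiv : divOf S.hF z = B := by
      rw [hz, divOf_mul S.hF (pow_ne_zero n hu0) (inv_ne_zero hwne), gd_divOf_pow, divOf_inv,
        hdiv, ← hBw]
      abel
    have h1 := gd_le_degree_poleDiv S huO hzO n hzred htr
    have h2 : Divisor.degree (poleDiv S.hF z) ≤ C := by
      apply Bdd.degree_poleDiv_le S.hF
      rw [hzdiv]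
      exact hB
    have h3 : (n : ℤ) ≤ C := le_trans h1 h2
    rw [hn] at h3
    push_cast at h3
    have := Int.self_le_toNat C
    omega

/-- **Boundedness theorem**: a principal divisor in the subgroup generated by the `Λ Y` (`Λ` good,
`Y` ANY divisor of degree `0`) is the divisor of a function with reduction `1`. -/
theorem mem_unitDiv_of_mem_closure [IsAlgClosed k] (𝓛 : Set (Divisor K F →+ Divisor K F))
    (h𝓛 : ∀ Λ ∈ 𝓛, IsGoodMap S Λ) {f : F} (hf : f ≠ 0)
    (hv : divOf S.hF f ∈ AddSubgroup.closure (genDiv 𝓛)) :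
    divOf S.hF f ∈ unitDiv S := by
  obtain ⟨C, hC⟩ := exists_bdd_of_mem_closure S 𝓛 h𝓛 hv
  exact mem_unitDiv_of_bdd S hf C hC

/-- **Core of S37 (abstract)**: with the KEY LEMMA for the exponent `m`, a divisor `D` in the
subgroup generated by the `Λ Y` such that `m • D` is principal is itself principal. -/
theorem principal_of_mem_closure [IsAlgClosed k] (𝓛 : Set (Divisor K F →+ Divisor K F))
    (h𝓛 : ∀ Λ ∈ 𝓛, IsGoodMap S Λ) (m : ℕ) (hm : m ≠ 0)
    (hKL : ∀ w : F, S.red w = 1 → (∀ P : Place K F, (m : ℤ) ∣ P.ord w) → ∃ h : F, h ^ m = w)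
    {D : Divisor K F} (hD : D ∈ AddSubgroup.closure (genDiv 𝓛)) {f : F} (hf : f ≠ 0)
    (hmD : m • D = divOf S.hF f) :
    ∃ h : F, h ≠ 0 ∧ D = divOf S.hF h := by
  have hmem : divOf S.hF f ∈ AddSubgroup.closure (genDiv 𝓛) := by
    rw [← hmD]
    exact AddSubgroup.nsmul_mem _ hD m
  obtain ⟨w, hw, hfw⟩ := mem_unitDiv_of_mem_closure S 𝓛 h𝓛 hf hmem
  have hw0 : w ≠ 0 := S.ne_zero_of_red_ne_zero (by rw [hw]; exact one_ne_zero)
  have hdvd : ∀ P : Place K F, (m : ℤ) ∣ P.ord w := by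
    intro P
    refine ⟨D P, ?_⟩
    rw [← divOf_apply S.hF w P, ← hfw, ← hmD, Finsupp.smul_apply, nsmul_eq_mul]
  obtain ⟨h, hh⟩ := hKL w hw hdvd
  have hh0 : h ≠ 0 := by
    rintro rfl
    rw [zero_pow hm] at hh
    exact hw0 hh.symm
  refine ⟨h, hh0, ?_⟩
  have e : m • D = m • divOf S.hF h := by
    rw [hmD, hfw, ← hh, gd_divOf_pow]
  apply Finsupp.ext
  intro v
  have e' := congrArg (fun X : Divisor K F => X v) e
  simp only [Finsupp.smul_apply, nsmul_eq_mul] at e'
  exact mul_left_cancel₀ (Int.natCast_ne_zero.mpr hm) e'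

end Fermat.Agent.S37
end
end MergeWrap_S37_Bounded
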